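import Fermat.Agent.QuaternionNF.Local

/-!
# A quaternion algebra with prescribed ramification

The first slot is a uniformiser at the chosen primes and negative at the chosen real embeddings; the
second exists because the units outside a large set have index two in the local classes.
-/

set_option autoImplicit false
set_option linter.unusedSectionVars false
set_option linter.style.haveILetI false

noncomputable section

universe u

open NumberField NumberField.InfinitePlace IsDedekindDomain WithZero Finset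
open FA.ArtinRec
open FA.HasseCyclic (locNorms mem_locNorms_iff_dvd exists_good_set ord_eq_zero_of_nearOne nearOne
  locNorms_index_eq)
open FA.QuadFormsNF
open scoped Pointwise nonZeroDivisors Classical

namespace FA.QuaternionNF

variable {K : Type u} [Field K] [NumberField K]

/-- A uniformiser has a root with full local index. -/
theorem finIdx_eq_two_of_ord {L : Type*} [Field L] [NumberField L] [Algebra K L] [IsGalois K L]
    {σ : L ≃ₐ[K] L} (hσ : ∀ g, g ∈ Subgroup.zpowers σ) (h2 : Module.finrank K L = 2) {a : Kˣ}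
    {α : L} (hα : α ^ 2 = algebraMap K L a) {v : HeightOneSpectrum (𝓞 K)} (hv : ord v a = 1) :
    finIdx L v = 2 := by
  obtain ⟨Q, rfl⟩ := exists_belowP K L v
  have hα0 : α ≠ 0 := fun h0 => a.ne_zero ((map_eq_zero (algebraMap K L)).1 (by rw [← hα, h0]; simp))
  have hram : IsRam L (belowP K Q) := by
    by_contra hr
    have h1 := ord_baseU Q a
    rw [eIdx_eq_one hr, hv, show (baseU a : Lˣ) = Units.mk0 α hα0 * Units.mk0 α hα0 from
      Units.ext (by rw [baseU_val, ← hα, sq]; rfl), ord_mul] at h1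
    omega
  obtain ⟨Q', hQ', hne⟩ := hram
  obtain ⟨⟨g, hg⟩, hg1⟩ := Subgroup.ne_bot_iff_exists_ne_one.1 hne
  have hfix : galPrime g Q' = Q' := HeightOneSpectrum.ext (Ideal.inertia_le_stabilizer _ hg)
  have hσord : orderOf σ = 2 := by
    rw [orderOf_eq_card_of_forall_mem_zpowers hσ, IsGalois.card_aut_eq_finrank, h2]
  have hgσ : g = σ := by
    have hg0 : g ≠ 1 := fun h => hg1 (Subtype.ext h)
    obtain ⟨i, rfl⟩ := exists_pow_eq hσ g
    rw [← pow_mod_orderOf, hσord] at hg0 ⊢
    rcases Nat.mod_two_eq_zero_or_one i with h | h <;> rw [h] at hg0 ⊢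
    · exact absurd (pow_zero σ) hg0
    · exact pow_one σ
  subst hgσ
  have hsub : Nat.card {R : HeightOneSpectrum (𝓞 L) // belowP K R = belowP K Q} = 1 := by
    rw [Nat.card_eq_one_iff_exists]
    refine ⟨⟨Q', hQ'⟩, fun R => Subtype.ext ?_⟩
    obtain ⟨i, hi⟩ := exists_iterate_eq hσ (hQ'.trans R.2.symm)
    rw [← hi, Function.iterate_fixed hfix]
  have := finIdx_mul_card hσ (belowP K Q)
  rwa [hsub, mul_one, h2] at this

/-- **Existence with prescribed ramification.** -/
theorem exists_prescribed (S : Finset (HeightOneSpectrum (𝓞 K))) (R : Finset (K →+* ℝ))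
    (heven : Even (S.card + R.card)) :
    ∃ a b : K, a ≠ 0 ∧ b ≠ 0 ∧
      (∀ v : HeightOneSpectrum (𝓞 K),
        ¬ SplitsAt (algebraMap K (v.adicCompletion K)) a b ↔ v ∈ S) ∧
      ∀ φ : K →+* ℝ, ¬ SplitsAt φ a b ↔ φ ∈ R := by
  by_cases hempty : S = ∅ ∧ R = ∅
  · refine ⟨1, 1, one_ne_zero, one_ne_zero, fun v => ?_, fun φ => ?_⟩ <;>
    · simp only [hempty.1, hempty.2, Finset.notMem_empty, iff_false, not_not]
      exact ⟨1, 0, by simp⟩
  obtain ⟨a, ha, hsgn⟩ := exists_approx S (fun v => unif v) 1 fun φ => decide (φ ∉ R)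
  have hneg : ∀ φ ∈ R, φ (a : K) < 0 := fun φ hφ =>
    lt_of_le_of_ne (not_lt.1 fun h => by simpa [hφ] using (hsgn φ).1 h)
      ((map_ne_zero φ).2 a.ne_zero)
  have hord : ∀ v ∈ S, ord v a = 1 := fun v hv => by
    have h0 : ord v (a / unif v) = 0 :=
      ord_eq_zero_of_near one_pos (by rw [Units.val_div_eq_div_val]; exact ha v hv)
    rw [ord_div, ord_unif, sub_eq_zero] at h0
    exact h0
  have hsq : ¬ IsSquare (a : K) := by
    rintro ⟨c, hc⟩
    rcases not_and_or.1 hempty with h | h
    · obtain ⟨v, hv⟩ := Finset.nonempty_iff_ne_empty.2 h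
      have hc0 : c ≠ 0 := fun h0 => a.ne_zero (by rw [hc, h0, mul_zero])
      have h1 := hord v hv
      rw [show a = Units.mk0 c hc0 * Units.mk0 c hc0 from Units.ext hc, ord_mul] at h1
      omega
    · obtain ⟨φ, hφ⟩ := Finset.nonempty_iff_ne_empty.2 h
      have h1 := hneg φ hφ
      rw [hc, map_mul] at h1
      exact absurd h1 (not_lt.2 (mul_self_nonneg _))
  obtain ⟨L, _, _, _, _, _, α, h2, hα, hnot⟩ := exists_sqrt_field hsq
  obtain ⟨σ, hσ⟩ := IsCyclic.exists_generator (α := L ≃ₐ[K] L)
  haveI : IsMulCommutative (L ≃ₐ[K] L) :=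
    ⟨⟨fun g g' => (IsCyclic.commGroup (α := L ≃ₐ[K] L)).mul_comm g g'⟩⟩
  obtain ⟨T, hT, hcl, hclL, hram⟩ := exists_good_set (L := L) S
  -- witnesses
  set I : Finset (InfinitePlace K ⊕ {v // v ∈ T}) := Finset.univ.filter
    (Sum.elim (fun w => ∃ h : IsReal w, embedding_of_isReal h ∈ R) fun v => v.1 ∈ S) with hI
  have hwit : ∀ i ∈ I, ∃ c : Kˣ, c ∉ locGroups L T i := by
    rintro (w | v) hi <;> simp only [hI, Finset.mem_filter, Finset.mem_univ, true_and, Sum.elim_inl,
      Sum.elim_inr] at hi
    · obtain ⟨h, hR⟩ := hi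
      refine ⟨-1, fun hmem => ?_⟩
      have h1 := (mem_infNorms.1 hmem) h (not_isUnramifiedIn_of_neg hα h (hneg _ hR))
      norm_num at h1
    · by_contra hall
      push Not at hall
      have h1 := locNorms_index_eq hσ v.1
      rw [finIdx_eq_two_of_ord hσ h2 hα (hord v.1 hi),
        show locNorms L v.1 = ⊤ from eq_top_iff.2 fun c _ => hall c, Subgroup.index_top] at h1
      omega
  choose! c hc using hwit
  set g : LocProd T (locGroups L T) := fun i => if i ∈ I then QuotientGroup.mk (c i) else 1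
  have hcard := card_locClasses_locGroups hσ hcl hclL hram
  rw [h2] at hcard
  obtain ⟨e, he, huniq⟩ := (Nat.card_eq_two_iff' (1 : LocClasses T (locGroups L T))).1 hcard
  have hIcard : I.card = S.card + R.card := by
    have h1 : I.toRight.card = S.card := by
      refine Finset.card_bij (fun v _ => v.1) (fun v hv => ?_) (fun v _ v' _ h => Subtype.ext h)
        fun v hv => ⟨⟨v, hT hv⟩, by simp [hI, hv], rfl⟩
      simpa [hI] using hv
    have hmem : ∀ w ∈ I.toLeft, ∃ h : IsReal w, embedding_of_isReal h ∈ R := fun w hw => by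
      simpa [hI] using hw
    have h2' : I.toLeft.card = R.card := by
      refine Finset.card_bij (fun w hw => embedding_of_isReal (hmem w hw).choose)
        (fun w hw => (hmem w hw).choose_spec)
        (fun w hw w' hw' h => embedding_of_isReal_inj _ _ h) fun φ hφ => ?_
      obtain ⟨⟨w, hw⟩, rfl⟩ := FA.Hecke.exists_isReal_embedding φ
      exact ⟨w, by simp [hI]; exact ⟨hw, hφ⟩, rfl⟩
    rw [← Finset.card_toLeft_add_card_toRight, h2', h1, add_comm]
  have hg1 : (QuotientGroup.mk g : LocClasses T (locGroups L T)) = 1 := by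
    have hord2 : e ^ 2 = 1 := by
      by_contra h
      have h3 := huniq _ h
      rw [sq, mul_eq_left] at h3
      exact he h3
    rw [← prod_singleLoc g, QuotientGroup.mk_prod, ← Finset.prod_subset (Finset.subset_univ I)
      (fun i _ hi => by simp only [g, if_neg hi, singleLoc_one, QuotientGroup.mk_one]),
      Finset.prod_congr rfl (fun i hi => huniq _ ?_), Finset.prod_const, hIcard]
    · obtain ⟨m, hm⟩ := heven
      rw [hm, ← two_mul, pow_mul, hord2, one_pow]
    · simp only [g, if_pos hi]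
      exact singleLoc_class_ne_one hσ h2 hcl hclL hram (hc i hi)
  obtain ⟨b, hbT, hb⟩ := (QuotientGroup.eq_one_iff g).1 hg1
  have hbi : ∀ i, b ∉ locGroups L T i ↔ i ∈ I := fun i => by
    have h1 : (QuotientGroup.mk b : Kˣ ⧸ locGroups L T i) = g i := congrFun hb i
    rw [← QuotientGroup.eq_one_iff, h1]
    by_cases hi : i ∈ I
    · simp only [g, if_pos hi, hi, iff_true]
      exact fun h => hc i hi ((QuotientGroup.eq_one_iff _).1 h)
    · simp only [g, if_neg hi, hi, not_true]
  refine ⟨a, b, a.ne_zero, b.ne_zero, fun v => ?_, fun φ => ?_⟩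
  · unfold SplitsAt
    rw [← mem_locNorms_iff_conic a.ne_zero h2 hα hnot v b]
    by_cases hvT : v ∈ T
    · refine (hbi (Sum.inr ⟨v, hvT⟩)).trans ?_
      simp [hI]
    · exact iff_of_false (not_not.2 ((mem_locNorms_iff_dvd hσ fun hr => hvT (hram v hr)).2
        (by rw [hbT v hvT]; exact dvd_zero _))) fun hv => hvT (hT hv)
  · obtain ⟨⟨w, hw⟩, rfl⟩ := FA.Hecke.exists_isReal_embedding φ
    unfold SplitsAt
    rw [← mem_infNorms_iff_conic a.ne_zero h2 hα hnot hw b]
    refine (hbi (Sum.inl w)).trans ?_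
    simp only [hI, Finset.mem_filter, Finset.mem_univ, true_and, Sum.elim_inl]
    exact ⟨fun ⟨_, h⟩ => h, fun h => ⟨hw, h⟩⟩

end FA.QuaternionNF

end
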