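import Fermat.Agent.QuadFormsNF.Small
import Mathlib.Algebra.Quaternion
import Mathlib.Algebra.QuaternionBasis
import Mathlib.LinearAlgebra.Dimension.Constructions
import Mathlib.LinearAlgebra.Matrix.ToLin

/-!
# Quaternion algebras over a field

A quaternion algebra is split exactly when its conic has a point, it is rebuilt from any pure element
and an anticommuting one, and a homomorphism out of it is injective.
-/

set_option autoImplicit false
set_option linter.unusedSectionVars false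
set_option linter.unnecessarySeqFocus false

noncomputable section

open scoped Quaternion
open Matrix
open FA.QuadForms (Isotropic Iso3)
open FA.QuadFormsNF (isotropic_three_of_four exists_conic_of_iso3)
open FA.HasseCyclic (exists_form_eq exists_conic_point)

namespace FA.QuaternionNF

/-- The conic of `(a, b)` has a point after the extension `f`. -/
def SplitsAt {K F : Type*} [Field K] [Field F] (f : K →+* F) (a b : K) : Prop :=
  ∃ x y : F, f a * x ^ 2 + f b * y ^ 2 = 1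

variable {F : Type*} [Field F]

/-- The reduced norm. -/
def qNorm (a b : F) (x : ℍ[F,a,b]) : F :=
  x.re ^ 2 - a * x.imI ^ 2 - b * x.imJ ^ 2 + a * b * x.imK ^ 2

theorem mul_star_eq (a b : F) (x : ℍ[F,a,b]) : x * star x = QuaternionAlgebra.coe (qNorm a b x) := by
  ext <;>
    simp only [qNorm, QuaternionAlgebra.re_mul, QuaternionAlgebra.imI_mul, QuaternionAlgebra.imJ_mul,
      QuaternionAlgebra.imK_mul, QuaternionAlgebra.re_star, QuaternionAlgebra.imI_star,
      QuaternionAlgebra.imJ_star, QuaternionAlgebra.imK_star, QuaternionAlgebra.re_coe,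
      QuaternionAlgebra.imI_coe, QuaternionAlgebra.imJ_coe, QuaternionAlgebra.imK_coe] <;> ring

theorem star_mul_eq (a b : F) (x : ℍ[F,a,b]) : star x * x = QuaternionAlgebra.coe (qNorm a b x) := by
  ext <;>
    simp only [qNorm, QuaternionAlgebra.re_mul, QuaternionAlgebra.imI_mul, QuaternionAlgebra.imJ_mul,
      QuaternionAlgebra.imK_mul, QuaternionAlgebra.re_star, QuaternionAlgebra.imI_star,
      QuaternionAlgebra.imJ_star, QuaternionAlgebra.imK_star, QuaternionAlgebra.re_coe,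
      QuaternionAlgebra.imI_coe, QuaternionAlgebra.imJ_coe, QuaternionAlgebra.imK_coe] <;> ring

theorem isUnit_of_qNorm_ne_zero {a b : F} {x : ℍ[F,a,b]} (h : qNorm a b x ≠ 0) : IsUnit x := by
  refine ⟨⟨x, (qNorm a b x)⁻¹ • star x, ?_, ?_⟩, rfl⟩
  · rw [mul_smul_comm, mul_star_eq, QuaternionAlgebra.smul_coe, inv_mul_cancel₀ h,
      QuaternionAlgebra.coe_one]
  · rw [smul_mul_assoc, star_mul_eq, QuaternionAlgebra.smul_coe, inv_mul_cancel₀ h,
      QuaternionAlgebra.coe_one]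

theorem not_isUnit_of_qNorm_eq_zero {a b : F} {x : ℍ[F,a,b]} (hx : x ≠ 0) (h : qNorm a b x = 0) :
    ¬ IsUnit x := fun hu => by
  have h0 : star x * x = 0 := by rw [star_mul_eq, h, QuaternionAlgebra.coe_zero]
  exact hx (by simpa using congrArg star ((IsUnit.mul_left_eq_zero hu).1 h0))

/-- A zero of the norm form gives a point on the conic. -/
theorem exists_conic_of_norm_zero [CharZero F] {a b : F} (ha : a ≠ 0) (hb : b ≠ 0) {r x y z : F}
    (hne : r ≠ 0 ∨ x ≠ 0 ∨ y ≠ 0 ∨ z ≠ 0)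
    (h : r ^ 2 - a * x ^ 2 - b * y ^ 2 + a * b * z ^ 2 = 0) :
    ∃ s t : F, a * s ^ 2 + b * t ^ 2 = 1 := by
  have hiso : Isotropic ![1, -a, -b, a * b * (1 : F) ^ 2] := by
    refine ⟨![r, x, y, z], fun e => ?_, by simp [Fin.sum_univ_four]; linear_combination h⟩
    have e0 := congrFun e 0
    have e1 := congrFun e 1
    have e2 := congrFun e 2
    have e3 := congrFun e 3
    simp at e0 e1 e2 e3
    simp [e0, e1, e2, e3] at hne
  obtain ⟨u, hu, he⟩ := isotropic_three_of_four (A := a) (B := b) 1 one_ne_zero hiso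
  simp only [Fin.sum_univ_three, Matrix.cons_val_zero, Matrix.cons_val_one, Matrix.cons_val] at he
  refine exists_conic_of_iso3 ha hb ⟨u 1, u 2, u 0, ?_, by linear_combination -he⟩
  by_contra hn
  push Not at hn
  exact hu (funext fun i => by fin_cases i <;> simp [hn.1, hn.2.1, hn.2.2])

/-- **Division exactly without a point.** -/
theorem forall_isUnit_iff [CharZero F] {a b : F} (ha : a ≠ 0) (hb : b ≠ 0) :
    (∀ x : ℍ[F,a,b], x ≠ 0 → IsUnit x) ↔ ¬ ∃ s t : F, a * s ^ 2 + b * t ^ 2 = 1 := by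
  refine ⟨fun h ⟨s, t, hst⟩ => ?_, fun h x hx => isUnit_of_qNorm_ne_zero fun h0 =>
    h (exists_conic_of_norm_zero ha hb ?_ h0)⟩
  · refine not_isUnit_of_qNorm_eq_zero (x := (⟨1, s, t, 0⟩ : ℍ[F,a,b])) ?_ ?_ (h _ ?_)
    · exact fun e => one_ne_zero (congrArg QuaternionAlgebra.re e)
    · simp only [qNorm]
      linear_combination -hst
    · exact fun e => one_ne_zero (congrArg QuaternionAlgebra.re e)
  · by_contra hn
    push Not at hn
    exact hx (QuaternionAlgebra.ext hn.1 hn.2.1 hn.2.2.1 hn.2.2.2)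

/-- The part commuting with the first generator. -/
theorem eq_zero_of_hom_commuting [CharZero F] {a b : F} (ha : a ≠ 0) (hb : b ≠ 0) {A : Type*}
    [Ring A] [Nontrivial A] [Algebra F A] (f : ℍ[F,a,b] →ₐ[F] A) {r u : F}
    (h : f (⟨r, u, 0, 0⟩ : ℍ[F,a,b]) = 0) : r = 0 ∧ u = 0 := by
  have hsc : ∀ c : F, f ⟨c, 0, 0, 0⟩ = 0 → c = 0 := fun c hc => by
    rw [← QuaternionAlgebra.algebraMap_eq, AlgHom.commutes] at hc
    exact (map_eq_zero (algebraMap F A)).1 hc
  have e3 : b • (⟨r, u, 0, 0⟩ : ℍ[F,a,b]) +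
      (⟨0, 0, 1, 0⟩ : ℍ[F,a,b]) * ⟨r, u, 0, 0⟩ * (⟨0, 0, 1, 0⟩ : ℍ[F,a,b]) =
        ⟨2 * b * r, 0, 0, 0⟩ := by
    ext <;> simp <;> ring
  have h3 : 2 * b * r = 0 := hsc _ (by
    rw [← e3, map_add, map_smul, map_mul, map_mul, h, smul_zero, mul_zero, zero_mul, add_zero])
  have hr : r = 0 := by simpa [hb] using h3
  subst hr
  have e4 : (⟨0, u, 0, 0⟩ : ℍ[F,a,b]) * (⟨0, 1, 0, 0⟩ : ℍ[F,a,b]) = ⟨a * u, 0, 0, 0⟩ := by
    ext <;> simp
  exact ⟨rfl, by simpa [ha] using hsc (a * u) (by rw [← e4, map_mul, h, zero_mul])⟩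

/-- A homomorphism from a quaternion algebra is injective. -/
theorem injective_quaternion_hom [CharZero F] {a b : F} (ha : a ≠ 0) (hb : b ≠ 0) {A : Type*}
    [Ring A] [Nontrivial A] [Algebra F A] (f : ℍ[F,a,b] →ₐ[F] A) : Function.Injective f := by
  rw [injective_iff_map_eq_zero]
  rintro ⟨r, u, w, z⟩ hx
  have e1 : a • (⟨r, u, w, z⟩ : ℍ[F,a,b]) +
      (⟨0, 1, 0, 0⟩ : ℍ[F,a,b]) * ⟨r, u, w, z⟩ * (⟨0, 1, 0, 0⟩ : ℍ[F,a,b]) =
        ⟨2 * a * r, 2 * a * u, 0, 0⟩ := by
    ext <;> simp <;> ring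
  have e2 : a • (⟨r, u, w, z⟩ : ℍ[F,a,b]) * (⟨0, 0, 1, 0⟩ : ℍ[F,a,b]) -
      (⟨0, 1, 0, 0⟩ : ℍ[F,a,b]) * ⟨r, u, w, z⟩ * (⟨0, 1, 0, 0⟩ : ℍ[F,a,b]) *
        (⟨0, 0, 1, 0⟩ : ℍ[F,a,b]) = ⟨2 * a * b * w, 2 * a * b * z, 0, 0⟩ := by
    ext <;> simp <;> ring
  obtain ⟨hr, hu⟩ := eq_zero_of_hom_commuting ha hb f (r := 2 * a * r) (u := 2 * a * u) (by
    rw [← e1, map_add, map_smul, map_mul, map_mul, hx, smul_zero, mul_zero, zero_mul, add_zero])
  obtain ⟨hw, hz⟩ := eq_zero_of_hom_commuting ha hb f (r := 2 * a * b * w) (u := 2 * a * b * z) (by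
    rw [← e2, map_sub, map_mul, map_mul, map_mul, map_mul, map_smul, hx, smul_zero, mul_zero,
      zero_mul, zero_mul, zero_mul, sub_zero])
  simp [ha, hb] at hr hu hw hz
  simp only [hr, hu, hw, hz]
  rfl

/-- A basis in an algebra of dimension four gives an isomorphism. -/
theorem nonempty_algEquiv_of_basis [CharZero F] {a b : F} (ha : a ≠ 0) (hb : b ≠ 0) {A : Type*}
    [Ring A] [Nontrivial A] [Algebra F A] [FiniteDimensional F A]
    (hA : Module.finrank F A = 4) (q : QuaternionAlgebra.Basis A a 0 b) :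
    Nonempty (ℍ[F,a,b] ≃ₐ[F] A) := by
  have hinj := injective_quaternion_hom ha hb q.liftHom
  exact ⟨AlgEquiv.ofBijective q.liftHom ⟨hinj,
    (LinearMap.injective_iff_surjective_of_finrank_eq_finrank (f := q.liftHom.toLinearMap)
      (by rw [QuaternionAlgebra.finrank_eq_four, hA])).1 hinj⟩⟩

/-- A split algebra is the matrix algebra. -/
theorem nonempty_algEquiv_matrix [CharZero F] {a b : F} (ha : a ≠ 0) (hb : b ≠ 0)
    (h : ∃ s t : F, a * s ^ 2 + b * t ^ 2 = 1) :
    Nonempty (ℍ[F,a,b] ≃ₐ[F] Matrix (Fin 2) (Fin 2) F) := by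
  obtain ⟨s, t, hst⟩ := h
  obtain ⟨p, q, hpq⟩ := exists_form_eq two_ne_zero hst
  refine nonempty_algEquiv_of_basis ha hb (by simp [Module.finrank_matrix])
    { i := !![0, a; 1, 0]
      j := !![p, -(q * a); q, -p]
      k := !![a * q, -(a * p); p, -(a * q)]
      i_mul_i := ?_
      j_mul_j := ?_
      i_mul_j := ?_
      j_mul_i := ?_ } <;>
    ext m n <;> fin_cases m <;> fin_cases n <;>
      simp [Matrix.mul_apply, Fin.sum_univ_two, ← hpq] <;> ring

/-- Multiplying the second slot by a norm. -/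
theorem nonempty_algEquiv_mul_norm [CharZero F] {a b p q : F} (ha : a ≠ 0) (hb : b ≠ 0)
    (hN : p ^ 2 - a * q ^ 2 ≠ 0) :
    Nonempty (ℍ[F,a,b * (p ^ 2 - a * q ^ 2)] ≃ₐ[F] ℍ[F,a,b]) := by
  refine nonempty_algEquiv_of_basis ha (mul_ne_zero hb hN) (QuaternionAlgebra.finrank_eq_four _ _ _)
    { i := ⟨0, 1, 0, 0⟩
      j := ⟨0, 0, p, q⟩
      k := ⟨0, 0, a * q, p⟩
      i_mul_i := ?_
      j_mul_j := ?_
      i_mul_j := ?_
      j_mul_i := ?_ } <;>
    ext <;> simp <;> ring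

/-- **The algebra rebuilt on a pure element.** -/
theorem exists_slot [CharZero F] {a b x y z : F} (ha : a ≠ 0) (hb : b ≠ 0)
    (hd : a * x ^ 2 + b * y ^ 2 - a * b * z ^ 2 ≠ 0) :
    ∃ c : F, c ≠ 0 ∧
      Nonempty (ℍ[F,a * x ^ 2 + b * y ^ 2 - a * b * z ^ 2,c] ≃ₐ[F] ℍ[F,a,b]) := by
  set d := a * x ^ 2 + b * y ^ 2 - a * b * z ^ 2 with hd'
  suffices h : ∃ r s t : F, a * x * r + b * y * s - a * b * z * t = 0 ∧
      a * r ^ 2 + b * s ^ 2 - a * b * t ^ 2 ≠ 0 by
    obtain ⟨r, s, t, horth, hc⟩ := h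
    refine ⟨_, hc, nonempty_algEquiv_of_basis hd hc (QuaternionAlgebra.finrank_eq_four _ _ _)
      { i := ⟨0, x, y, z⟩
        j := ⟨0, r, s, t⟩
        k := ⟨0, -(b * y * t) + b * z * s, a * x * t - a * z * r, x * s - y * r⟩
        i_mul_i := ?_
        j_mul_j := ?_
        i_mul_j := ?_
        j_mul_i := ?_ }⟩ <;>
      ext <;> simp [hd'] <;> first | linear_combination horth | ring
  by_cases h1 : b * y ^ 2 - a * b * z ^ 2 = 0
  · by_cases h2 : a * x ^ 2 - a * b * z ^ 2 = 0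
    · refine ⟨a * b * z * x, a * b * z * y, d + a * b * z * z, by rw [hd']; ring, fun h => ?_⟩
      have e : -(a * b) * (a * x ^ 2 + b * y ^ 2) * d = 0 := by rw [← h, hd']; ring
      have e2 : a * x ^ 2 + b * y ^ 2 = 0 := by simpa [ha, hb, hd] using e
      exact hd (by linear_combination (1 / 2 : F) * (h1 + h2 + e2))
    · refine ⟨-(b * y) * x, d - b * y * y, -(b * y) * z, by rw [hd']; ring, fun h => h2 ?_⟩
      have e : b * (a * x ^ 2 - a * b * z ^ 2) * d = 0 := by rw [← h, hd']; ring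
      simpa [hb, hd] using e
  · refine ⟨d - a * x * x, -(a * x) * y, -(a * x) * z, by rw [hd']; ring, fun h => h1 ?_⟩
    have e : a * (b * y ^ 2 - a * b * z ^ 2) * d = 0 := by rw [← h, hd']; ring
    simpa [ha, hd] using e

/-- An image of the first generator has no real part. -/
theorem re_eq_zero_of_anticommute [CharZero F] {a b c e : F} {u v : ℍ[F,a,b]}
    (he : e ≠ 0) (hu : u * u = c • 1) (hv : v * v = e • 1) (huv : u * v + v * u = 0) :
    u.re = 0 := by
  by_contra hr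
  have h1 := congrArg QuaternionAlgebra.imI hu
  have h2 := congrArg QuaternionAlgebra.imJ hu
  have h3 := congrArg QuaternionAlgebra.imK hu
  simp at h1 h2 h3
  have e1 : u.imI = 0 := by
    have : (2 * u.re) * u.imI = 0 := by linear_combination h1
    simpa [hr] using this
  have e2 : u.imJ = 0 := by
    have : (2 * u.re) * u.imJ = 0 := by linear_combination h2
    simpa [hr] using this
  have e3 : u.imK = 0 := by
    have : (2 * u.re) * u.imK = 0 := by linear_combination h3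
    simpa [hr] using this
  have hus : u = (u.re : ℍ[F,a,b]) := QuaternionAlgebra.ext rfl e1 e2 e3
  rw [hus, QuaternionAlgebra.coe_commutes, ← two_smul F, QuaternionAlgebra.mul_coe_eq_smul,
    smul_smul, smul_eq_zero] at huv
  rcases huv with h | h
  · exact hr (by simpa using h)
  · rw [h, mul_zero] at hv
    exact he (by simpa using (congrArg QuaternionAlgebra.re hv).symm)

/-- **A point is carried along a homomorphism.** -/
theorem splitsAt_of_algHom {K : Type*} [Field K] [CharZero K] [CharZero F] (f : K →+* F)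
    {a b a' b' : K} (ha : a ≠ 0) (hb : b ≠ 0) (ha' : a' ≠ 0) (hb' : b' ≠ 0)
    (e : ℍ[K,a,b] →ₐ[K] ℍ[K,a',b']) (h : SplitsAt f a b) : SplitsAt f a' b' := by
  obtain ⟨x, y, hxy⟩ := h
  set q := (QuaternionAlgebra.Basis.self K (c₁ := a) (c₂ := 0) (c₃ := b)).compHom e
  set u := q.i
  set v := q.j
  have hu : u * u = a • 1 := by rw [q.i_mul_i, zero_smul, add_zero]
  have hv : v * v = b • 1 := q.j_mul_j
  have huv : u * v + v * u = 0 := by
    rw [q.i_mul_j, q.j_mul_i, zero_smul, zero_sub, add_neg_cancel]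
  have hu0 : u.re = 0 := re_eq_zero_of_anticommute hb hu hv huv
  have hv0 : v.re = 0 := re_eq_zero_of_anticommute ha hv hu (by rw [add_comm]; exact huv)
  have p1 := congrArg (fun w : ℍ[K,a',b'] => f w.re) hu
  have p2 := congrArg (fun w : ℍ[K,a',b'] => f w.re) hv
  have p3 := congrArg (fun w : ℍ[K,a',b'] => f w.re) huv
  simp [hu0, hv0] at p1 p2 p3
  exact exists_conic_of_norm_zero ((map_ne_zero f).2 ha') ((map_ne_zero f).2 hb')
    (r := 1) (x := x * f u.imI + y * f v.imI) (y := x * f u.imJ + y * f v.imJ)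
    (z := x * f u.imK + y * f v.imK) (Or.inl one_ne_zero)
    (by linear_combination -hxy - x ^ 2 * p1 - y ^ 2 * p2 - x * y * p3)

end FA.QuaternionNF

end
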