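import Fermat.Agent.QuadFormsNF.Reciprocity
import Fermat.Agent.QuaternionNF.Algebra

/-!
# Quaternion algebras at one place

For fixed `a` the elements that split `a` form a group of index at most two.  Hence two anisotropic
pure forms always share a value, and four squares represent everything.
-/

set_option autoImplicit false
set_option linter.unusedSectionVars false
set_option linter.style.haveILetI false

noncomputable section

universe u

open NumberField NumberField.InfinitePlace IsDedekindDomain WithZero Filter Topology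
open FA.ArtinRec
open FA.HasseCyclic (locNorms mem_locNorms_iff_dvd locNorms_index_eq exists_form_eq
  exists_conic_point exists_conic_point_of_local valuation_natCast)
open FA.QuadForms (Isotropic)
open FA.QuadFormsNF
open scoped Pointwise nonZeroDivisors Classical

namespace FA.QuaternionNF

section field

variable {K F : Type*} [Field K] [Field F] {f : K →+* F}

theorem SplitsAt.symm {a b : K} (h : SplitsAt f a b) : SplitsAt f b a := by
  obtain ⟨x, y, h⟩ := h
  exact ⟨y, x, by rw [← h]; ring⟩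

theorem splitsAt_of_isSquare [CharZero F] {a b : K} (ha : a ≠ 0) (hsq : IsSquare (f a)) :
    SplitsAt f a b := by
  obtain ⟨c, hc⟩ := hsq
  have hc0 : c ≠ 0 := fun h => ha ((map_eq_zero f).1 (by rw [hc, h, mul_zero]))
  exact ⟨1 / c, 0, by rw [hc]; field_simp; ring⟩

/-- The slot can be moved to `- a b`. -/
theorem splitsAt_of_neg_mul [CharZero F] {a b : K} (ha : a ≠ 0) (hb : b ≠ 0)
    (h : SplitsAt f (-(a * b)) a) : SplitsAt f a b := by
  obtain ⟨x, y, hxy⟩ := h.symm
  obtain ⟨p, q, hpq⟩ := exists_form_eq two_ne_zero hxy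
  have hfa : f a ≠ 0 := (map_ne_zero f).2 ha
  refine exists_conic_point two_ne_zero hfa ((map_ne_zero f).2 hb) (p := q) (q := p / f a) ?_
  rw [map_neg, map_mul] at hpq
  field_simp
  linear_combination -hpq

/-- The six variable form of two algebras. -/
def diffForm {R : Type*} [CommRing R] (a b a' b' : R) : Fin 6 → R :=
  ![a, b, -(a * b), -a', -b', a' * b']

theorem map_diffForm {a b a' b' : K} :
    (fun i => f (diffForm a b a' b' i)) = diffForm (f a) (f b) (f a') (f b') := by
  funext i; fin_cases i <;> simp [diffForm]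

theorem isotropic_diffForm {a b a' b' x y z x' y' z' : F}
    (hne : x ≠ 0 ∨ y ≠ 0 ∨ z ≠ 0 ∨ x' ≠ 0 ∨ y' ≠ 0 ∨ z' ≠ 0)
    (h : a * x ^ 2 + b * y ^ 2 - a * b * z ^ 2 = a' * x' ^ 2 + b' * y' ^ 2 - a' * b' * z' ^ 2) :
    Isotropic (diffForm a b a' b') := by
  refine ⟨![x, y, z, x', y', z'], fun e => ?_, ?_⟩
  · have h0 := congrFun e 0
    have h1 := congrFun e 1
    have h2 := congrFun e 2
    have h3 := congrFun e 3
    have h4 := congrFun e 4
    have h5 := congrFun e 5
    simp at h0 h1 h2 h3 h4 h5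
    simp [h0, h1, h2, h3, h4, h5] at hne
  · simp [diffForm, Fin.sum_univ_six]
    linear_combination h

theorem isotropic_diffForm_of_point [CharZero F] {a b a' b' x y : F}
    (h : a * x ^ 2 + b * y ^ 2 = 1) : Isotropic (diffForm a b a' b') := by
  refine isotropic_diffForm (x := b * y) (y := a * x) (z := 1) (x' := 0) (y' := 0) (z' := 0)
    (Or.inr (Or.inr (Or.inl one_ne_zero))) ?_
  linear_combination (a * b) * h

end field

variable {K : Type u} [Field K] [NumberField K]

/-- **For fixed `a` the second slots that split form a group of index at most two.** -/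
theorem exists_splitGroup (v : HeightOneSpectrum (𝓞 K)) {a : K} (ha : a ≠ 0) :
    ∃ N : Subgroup Kˣ, (∀ b : Kˣ, b ∈ N ↔ SplitsAt (algebraMap K (v.adicCompletion K)) a b) ∧
      (N = ⊤ ∨ N.index = 2) := by
  haveI := charZero_completion v
  by_cases hsq : IsSquare a
  · exact ⟨⊤, fun b => iff_of_true (Subgroup.mem_top b) (splitsAt_of_isSquare ha (hsq.map _)),
      Or.inl rfl⟩
  obtain ⟨L, _, _, _, _, _, α, h2, hα, hnot⟩ := exists_sqrt_field hsq
  obtain ⟨σ, hσ⟩ := IsCyclic.exists_generator (α := L ≃ₐ[K] L)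
  haveI : IsMulCommutative (L ≃ₐ[K] L) :=
    ⟨⟨fun g g' => (IsCyclic.commGroup (α := L ≃ₐ[K] L)).mul_comm g g'⟩⟩
  refine ⟨locNorms L v, fun b => mem_locNorms_iff_conic ha h2 hα hnot v b, ?_⟩
  have hdvd : finIdx L v ∣ 2 := h2 ▸ Dvd.intro _ (finIdx_mul_card hσ v)
  rw [← Subgroup.index_eq_one, locNorms_index_eq hσ]
  exact (Nat.dvd_prime Nat.prime_two).1 hdvd

/-- Two second slots that do not split differ by one that does. -/
theorem splitsAt_mul_of_not (v : HeightOneSpectrum (𝓞 K)) {a b c : K} (ha : a ≠ 0) (hb : b ≠ 0)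
    (hc : c ≠ 0) (h1 : ¬ SplitsAt (algebraMap K (v.adicCompletion K)) a b)
    (h2 : ¬ SplitsAt (algebraMap K (v.adicCompletion K)) a c) :
    SplitsAt (algebraMap K (v.adicCompletion K)) a (b * c) := by
  obtain ⟨N, hN, hidx⟩ := exists_splitGroup v ha
  rcases hidx with rfl | hidx
  · exact absurd ((hN (Units.mk0 b hb)).1 (Subgroup.mem_top _)) h1
  · have hb' : Units.mk0 b hb ∉ N := fun h => h1 ((hN (Units.mk0 b hb)).1 h)
    have hc' : Units.mk0 c hc ∉ N := fun h => h2 ((hN (Units.mk0 c hc)).1 h)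
    have hmem : Units.mk0 b hb * Units.mk0 c hc ∈ N :=
      (Subgroup.mul_mem_iff_of_index_two hidx).2 (iff_of_false hb' hc')
    simpa only [Units.val_mul, Units.val_mk0] using (hN _).1 hmem

/-- The other slots agree modulo a norm. -/
theorem splitsAt_mul_of_iff (v : HeightOneSpectrum (𝓞 K)) {a b c : K} (ha : a ≠ 0) (hb : b ≠ 0)
    (hc : c ≠ 0) (h : SplitsAt (algebraMap K (v.adicCompletion K)) a b ↔
      SplitsAt (algebraMap K (v.adicCompletion K)) a c) :
    SplitsAt (algebraMap K (v.adicCompletion K)) a (b * c) := by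
  by_cases h1 : SplitsAt (algebraMap K (v.adicCompletion K)) a b
  · obtain ⟨N, hN, -⟩ := exists_splitGroup v ha
    have hmem : Units.mk0 b hb * Units.mk0 c hc ∈ N :=
      mul_mem ((hN (Units.mk0 b hb)).2 h1) ((hN (Units.mk0 c hc)).2 (h.1 h1))
    simpa only [Units.val_mul, Units.val_mk0] using (hN _).1 hmem
  · exact splitsAt_mul_of_not v ha hb hc h1 fun h2 => h1 (h.2 h2)

/-- **Two pure forms share a value at a prime.** -/
theorem isotropic_diffForm_completion (v : HeightOneSpectrum (𝓞 K)) {a b a' b' : K} (ha : a ≠ 0)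
    (hb : b ≠ 0) (ha' : a' ≠ 0) (hb' : b' ≠ 0)
    (hiff : SplitsAt (algebraMap K (v.adicCompletion K)) a b ↔
      SplitsAt (algebraMap K (v.adicCompletion K)) a' b') :
    Isotropic fun i => algebraMap K (v.adicCompletion K) (diffForm a b a' b' i) := by
  haveI := charZero_completion v
  set g := algebraMap K (v.adicCompletion K)
  rw [map_diffForm]
  by_cases h : SplitsAt g a b
  · obtain ⟨x, y, hxy⟩ := h
    exact isotropic_diffForm_of_point hxy
  have h1 : ¬ SplitsAt g (-(a * b)) a := fun hs => h (splitsAt_of_neg_mul ha hb hs)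
  have h2 : ¬ SplitsAt g (-(a' * b')) a' := fun hs =>
    h (hiff.2 (splitsAt_of_neg_mul ha' hb' hs))
  have hab : -(a * b) ≠ 0 := neg_ne_zero.2 (mul_ne_zero ha hb)
  have hab' : -(a' * b') ≠ 0 := neg_ne_zero.2 (mul_ne_zero ha' hb')
  obtain ⟨c, hc, hc1, hc2⟩ : ∃ c : K, c ≠ 0 ∧ ¬ SplitsAt g (-(a * b)) c ∧
      ¬ SplitsAt g (-(a' * b')) c := by
    by_cases h3 : SplitsAt g (-(a' * b')) a
    · by_cases h4 : SplitsAt g (-(a * b)) a'
      · obtain ⟨N, hN, -⟩ := exists_splitGroup v hab
        obtain ⟨N', hN', -⟩ := exists_splitGroup v hab'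
        refine ⟨a * a', mul_ne_zero ha ha', fun hs => h1 ?_, fun hs => h2 ?_⟩
        · have hm : Units.mk0 a ha * Units.mk0 a' ha' ∈ N :=
            (hN _).2 (by simpa only [Units.val_mul, Units.val_mk0] using hs)
          exact (hN (Units.mk0 a ha)).1 ((Subgroup.mul_mem_cancel_right N
            ((hN (Units.mk0 a' ha')).2 h4)).1 hm)
        · have hm : Units.mk0 a ha * Units.mk0 a' ha' ∈ N' :=
            (hN' _).2 (by simpa only [Units.val_mul, Units.val_mk0] using hs)
          exact (hN' (Units.mk0 a' ha')).1 ((Subgroup.mul_mem_cancel_left N'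
            ((hN' (Units.mk0 a ha)).2 h3)).1 hm)
      · exact ⟨a', ha', h4, h2⟩
    · exact ⟨a, ha, h1, h3⟩
  obtain ⟨x, y, hxy⟩ := splitsAt_mul_of_not v hab hc ha hc1 h1
  obtain ⟨x', y', hxy'⟩ := splitsAt_mul_of_not v hab' hc ha' hc2 h2
  obtain ⟨p, q, hpq⟩ := exists_form_eq two_ne_zero hxy
  obtain ⟨p', q', hpq'⟩ := exists_form_eq two_ne_zero hxy'
  have hga : g a ≠ 0 := (map_ne_zero g).2 ha
  have hga' : g a' ≠ 0 := (map_ne_zero g).2 ha'
  have e1 : g a * (p / g a) ^ 2 + g b * q ^ 2 = g c := by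
    rw [map_neg, map_mul, map_mul] at hpq
    field_simp
    linear_combination hpq
  have e2 : g a' * (p' / g a') ^ 2 + g b' * q' ^ 2 = g c := by
    rw [map_neg, map_mul, map_mul] at hpq'
    field_simp
    linear_combination hpq'
  refine isotropic_diffForm (x := p / g a) (y := q) (z := 0) (x' := p' / g a') (y' := q') (z' := 0)
    ?_ (by linear_combination e1 - e2)
  by_contra hn
  push Not at hn
  rw [hn.1, hn.2.1] at e1
  exact (map_ne_zero g).2 hc (by linear_combination -e1)

/-- The same at a real place. -/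
theorem isotropic_diffForm_real (φ : K →+* ℝ) {a b a' b' : K} (ha : a ≠ 0)
    (ha' : a' ≠ 0) (hiff : SplitsAt φ a b ↔ SplitsAt φ a' b') :
    Isotropic fun i => φ (diffForm a b a' b' i) := by
  rw [map_diffForm]
  by_cases h : SplitsAt φ a b
  · obtain ⟨x, y, hxy⟩ := h
    exact isotropic_diffForm_of_point hxy
  obtain ⟨h1, -⟩ := (real_conic_iff ((map_ne_zero φ).2 ha)).1 h
  obtain ⟨h2, -⟩ := (real_conic_iff ((map_ne_zero φ).2 ha')).1 fun hs => h (hiff.2 hs)
  refine isotropic_diffForm (x := Real.sqrt (-φ a')) (y := 0) (z := 0)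
    (x' := Real.sqrt (-φ a)) (y' := 0) (z' := 0)
    (Or.inl (Real.sqrt_ne_zero'.2 (by linarith))) ?_
  rw [Real.sq_sqrt (by linarith), Real.sq_sqrt (by linarith)]
  ring

/-! ### Four squares at one prime -/

/-- A natural number that is no sum of two squares where `-1` is none. -/
theorem exists_natCast_not_splitsAt (v : HeightOneSpectrum (𝓞 K))
    (h : ¬ SplitsAt (algebraMap K (v.adicCompletion K)) (-1 : K) (-1)) :
    ∃ m : ℕ, m ≠ 0 ∧ ¬ SplitsAt (algebraMap K (v.adicCompletion K)) (-1 : K) (m : K) := by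
  set g := algebraMap K (v.adicCompletion K)
  obtain ⟨U, hU, hUsq⟩ := exists_isSquare_mul_near v
    (neg_ne_zero.2 (one_ne_zero (α := v.adicCompletion K)))
  obtain ⟨k, hk⟩ := exists_exp_subset v hU
  obtain ⟨N, hN0, hN⟩ := exists_natCast_mem {v}
  have hNv := hN v (Finset.mem_singleton_self v)
  set m : ℕ := N ^ k - 1
  have hm : (m : K) - -1 = (N : K) ^ k := by
    rw [sub_neg_eq_add, ← Nat.cast_one, ← Nat.cast_add,
      Nat.sub_add_cancel (Nat.one_le_pow _ _ (Nat.pos_of_ne_zero hN0)), Nat.cast_pow]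
  have hval : Valued.v (g (m : K) - -1) ≤ exp (-(k : ℤ)) := by
    rw [show (-1 : v.adicCompletion K) = g (-1) by rw [map_neg, map_one], ← map_sub, hm,
      valued_algebraMap, map_pow]
    have h1 : v.valuation K (N : K) ≤ exp (-(1 : ℤ)) := by
      rw [← map_natCast (algebraMap (𝓞 K) K), v.valuation_of_algebraMap]
      exact (v.intValuation_le_pow_iff_mem _ 1).2 (by rwa [pow_one])
    refine (pow_le_pow_left₀ zero_le h1 k).trans ?_
    rw [← exp_nsmul]
    simp
  obtain ⟨s, hs0, hs⟩ := hUsq _ (hk _ hval)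
  refine ⟨m, fun h0 => ?_, fun hsp => h ?_⟩
  · rw [h0, Nat.cast_zero, map_zero] at hs
    exact pow_ne_zero 2 hs0 (by linear_combination hs)
  · obtain ⟨x, y, hxy⟩ := hsp
    refine ⟨x, s * y, ?_⟩
    rw [map_neg, map_one] at hxy ⊢
    rw [hs] at hxy
    linear_combination hxy

/-- **Four squares represent everything in a completion.** -/
theorem exists_four_squares_completion (v : HeightOneSpectrum (𝓞 K)) (q : K) :
    ∃ x : Fin 4 → v.adicCompletion K, ∑ i, x i ^ 2 = algebraMap K (v.adicCompletion K) q := by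
  haveI := charZero_completion v
  set g := algebraMap K (v.adicCompletion K)
  by_cases h : SplitsAt g (-1 : K) (-1)
  · obtain ⟨x, y, hxy⟩ := h
    rw [map_neg, map_one] at hxy
    refine ⟨![(g q + 1) / 2, x * (g q - 1) / 2, y * (g q - 1) / 2, 0], ?_⟩
    simp only [Fin.sum_univ_four, Matrix.cons_val_zero, Matrix.cons_val_one, Matrix.cons_val]
    field_simp
    linear_combination (-(g q - 1) ^ 2) * hxy
  by_cases hq : q = 0
  · exact ⟨0, by simp [hq]⟩
  have two : ∀ c : K, SplitsAt g (-1 : K) c → ∃ s t : v.adicCompletion K, s ^ 2 + t ^ 2 = g c :=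
    fun c hc => by
      obtain ⟨x, y, hxy⟩ := hc
      obtain ⟨s, t, hst⟩ := exists_form_eq two_ne_zero hxy
      exact ⟨s, t, by rw [← hst, map_neg, map_one]; ring⟩
  by_cases hqs : SplitsAt g (-1 : K) q
  · obtain ⟨s, t, hst⟩ := two q hqs
    exact ⟨![s, t, 0, 0], by simpa [Fin.sum_univ_four] using hst⟩
  -- the least natural number that is no sum of two squares
  have hex : ∃ m : ℕ, m ≠ 0 ∧ ¬ SplitsAt g (-1 : K) (m : K) := exists_natCast_not_splitsAt v h
  obtain ⟨hm0, hm⟩ := Nat.find_spec hex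
  set m := Nat.find hex
  have hm1 : m ≠ 1 := fun e => hm ⟨0, 1, by rw [e, Nat.cast_one, map_neg, map_one]; ring⟩
  have hpred : SplitsAt g (-1 : K) ((m - 1 : ℕ) : K) := by
    by_contra hc
    exact Nat.find_min hex (show m - 1 < m by omega) ⟨by omega, hc⟩
  have hmK : (m : K) ≠ 0 := Nat.cast_ne_zero.2 hm0
  obtain ⟨p, r, hpr⟩ := two _ hpred
  obtain ⟨s, t, hst⟩ := two _ (splitsAt_mul_of_not v (neg_ne_zero.2 one_ne_zero) hq hmK hqs hm)
  rw [Nat.cast_sub (Nat.one_le_iff_ne_zero.2 hm0), Nat.cast_one, map_sub, map_one] at hpr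
  rw [map_mul] at hst
  have hg : g (m : K) ≠ 0 := (map_ne_zero g).2 hmK
  refine ⟨![s / g m, t / g m, (p * s - r * t) / g m, (r * s + p * t) / g m], ?_⟩
  simp only [Fin.sum_univ_four, Matrix.cons_val_zero, Matrix.cons_val_one, Matrix.cons_val]
  field_simp
  linear_combination g (m : K) * hst + (s ^ 2 + t ^ 2) * hpr

end FA.QuaternionNF

end
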