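import Fermat.Agent.QuaternionNF.Existence
import Fermat.Agent.Root.SummaryHasseMinkowskiNF

/-!
# The classification of quaternion algebras over a number field

Algebras ramified at the same places share a slot by the theorem of Hasse and Minkowski; the other
slots then differ by a norm everywhere locally, hence globally.
-/

set_option autoImplicit false
set_option linter.unusedSectionVars false
set_option linter.style.haveILetI false

noncomputable section

universe u

open scoped Quaternion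
open NumberField IsDedekindDomain
open FA.HasseCyclic (exists_form_eq exists_conic_point_of_local)
open FA.QuadForms (Isotropic)
open FA.QuadFormsNF
open scoped Pointwise nonZeroDivisors Classical

namespace FA.QuaternionNF

variable {K : Type u} [Field K] [NumberField K]

/-- An isomorphism keeps every point. -/
theorem splitsAt_congr {F : Type*} [Field F] [CharZero F] (f : K →+* F) {a b a' b' : K} (ha : a ≠ 0)
    (hb : b ≠ 0) (ha' : a' ≠ 0) (hb' : b' ≠ 0) (e : ℍ[K,a,b] ≃ₐ[K] ℍ[K,a',b']) :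
    SplitsAt f a b ↔ SplitsAt f a' b' :=
  ⟨splitsAt_of_algHom f ha hb ha' hb' e.toAlgHom,
    splitsAt_of_algHom f ha' hb' ha hb e.symm.toAlgHom⟩

theorem splitsAt_congr_completion (v : HeightOneSpectrum (𝓞 K)) {a b a' b' : K} (ha : a ≠ 0)
    (hb : b ≠ 0) (ha' : a' ≠ 0) (hb' : b' ≠ 0) (e : ℍ[K,a,b] ≃ₐ[K] ℍ[K,a',b']) :
    SplitsAt (algebraMap K (v.adicCompletion K)) a b ↔
      SplitsAt (algebraMap K (v.adicCompletion K)) a' b' := by
  haveI := charZero_completion v
  exact splitsAt_congr _ ha hb ha' hb' e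

theorem SplitsAt.map_id {F : Type*} [Field F] (f : K →+* F) {a b : K}
    (h : SplitsAt (RingHom.id K) a b) : SplitsAt f a b := by
  obtain ⟨x, y, hxy⟩ := h
  refine ⟨f x, f y, ?_⟩
  simpa using congrArg f hxy

/-- Splitting is decided in the completions. -/
theorem splitsAt_id_of_local {a b : K} (ha : a ≠ 0) (hb : b ≠ 0)
    (h1 : ∀ v : HeightOneSpectrum (𝓞 K), SplitsAt (algebraMap K (v.adicCompletion K)) a b)
    (h2 : ∀ φ : K →+* ℝ, SplitsAt φ a b) : SplitsAt (RingHom.id K) a b := by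
  obtain ⟨x, y, hxy⟩ := exists_conic_point_of_local ha hb h1 fun φ => by
    by_contra hn
    push Not at hn
    exact ((real_conic_iff ((map_ne_zero φ).2 ha)).2
      ⟨lt_of_le_of_ne hn.1 ((map_ne_zero φ).2 ha), hn.2⟩) (h2 φ)
  exact ⟨x, y, by simpa using hxy⟩

/-- **Quaternion algebras ramified at the same places are isomorphic.** -/
theorem nonempty_algEquiv_of_local {a b a' b' : K} (ha : a ≠ 0) (hb : b ≠ 0) (ha' : a' ≠ 0)
    (hb' : b' ≠ 0)
    (hfin : ∀ v : HeightOneSpectrum (𝓞 K), SplitsAt (algebraMap K (v.adicCompletion K)) a b ↔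
      SplitsAt (algebraMap K (v.adicCompletion K)) a' b')
    (hreal : ∀ φ : K →+* ℝ, SplitsAt φ a b ↔ SplitsAt φ a' b') :
    Nonempty (ℍ[K,a,b] ≃ₐ[K] ℍ[K,a',b']) := by
  by_cases hs : SplitsAt (RingHom.id K) a b
  · obtain ⟨e⟩ := nonempty_algEquiv_matrix ha hb (by simpa [SplitsAt] using hs)
    obtain ⟨e'⟩ := nonempty_algEquiv_matrix ha' hb' (by
      simpa [SplitsAt] using splitsAt_id_of_local ha' hb' (fun v => (hfin v).1 (hs.map_id _))
        fun φ => (hreal φ).1 (hs.map_id _))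
    exact ⟨e.trans e'.symm⟩
  have hs' : ¬ SplitsAt (RingHom.id K) a' b' := fun h => hs
    (splitsAt_id_of_local ha hb (fun v => (hfin v).2 (h.map_id _))
      fun φ => (hreal φ).2 (h.map_id _))
  obtain ⟨u, hu, he⟩ := (isotropic_iff_local (diffForm a b a' b')).2
    ⟨fun v => isotropic_diffForm_completion v ha hb ha' hb' (hfin v),
      fun φ => isotropic_diffForm_real φ ha ha' (hreal φ)⟩
  simp [diffForm, Fin.sum_univ_six] at he
  set d := a * u 0 ^ 2 + b * u 1 ^ 2 - a * b * u 2 ^ 2 with hd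
  have hdd : d = a' * u 3 ^ 2 + b' * u 4 ^ 2 - a' * b' * u 5 ^ 2 := by
    rw [hd]; linear_combination he
  have hd0 : d ≠ 0 := fun h0 => by
    have hz : ∀ {a b x y z : K}, a ≠ 0 → b ≠ 0 → ¬ SplitsAt (RingHom.id K) a b →
        a * x ^ 2 + b * y ^ 2 - a * b * z ^ 2 = 0 → x = 0 ∧ y = 0 ∧ z = 0 := by
      intro a b x y z ha hb hs h
      by_contra hn
      refine hs (exists_conic_of_norm_zero (r := 0) (x := x) (y := y) (z := z) ha hb ?_
        (by linear_combination -h))
      tauto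
    obtain ⟨e0, e1, e2⟩ := hz ha hb hs h0
    obtain ⟨e3, e4, e5⟩ := hz ha' hb' hs' (hdd.symm.trans h0)
    exact hu (funext fun i => by fin_cases i <;> simp [e0, e1, e2, e3, e4, e5])
  obtain ⟨c, hc, hiso⟩ := exists_slot (x := u 0) (y := u 1) (z := u 2) ha hb hd0
  obtain ⟨c', hc', hiso'⟩ := exists_slot (x := u 3) (y := u 4) (z := u 5) ha' hb'
    (hdd ▸ hd0 : a' * u 3 ^ 2 + b' * u 4 ^ 2 - a' * b' * u 5 ^ 2 ≠ 0)
  rw [← hdd] at hiso'
  rw [← hd] at hiso
  obtain ⟨e⟩ := hiso
  obtain ⟨e'⟩ := hiso'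
  have hdc : ¬ SplitsAt (RingHom.id K) d c := fun h =>
    hs ((splitsAt_congr _ hd0 hc ha hb e).1 h)
  -- the second slots differ by a norm
  have hdivn : c' / c ≠ 0 := div_ne_zero hc' hc
  obtain ⟨x, y, hxy⟩ := exists_conic_point_of_local hd0 hdivn (fun v => by
    haveI := charZero_completion v
    set g := algebraMap K (v.adicCompletion K)
    have h := splitsAt_mul_of_iff v hd0 hc hc' ((splitsAt_congr g hd0 hc ha hb e).trans
      ((hfin v).trans (splitsAt_congr g hd0 hc' ha' hb' e').symm))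
    obtain ⟨s, t, hst⟩ := h
    refine ⟨s, t * g c, ?_⟩
    have hgc : g c ≠ 0 := (map_ne_zero g).2 hc
    rw [map_mul] at hst
    rw [map_div₀]
    field_simp
    linear_combination hst) fun φ => by
    by_contra hn
    push Not at hn
    have hd' : φ d < 0 := lt_of_le_of_ne hn.1 ((map_ne_zero φ).2 hd0)
    have h := (splitsAt_congr φ hd0 hc ha hb e).trans
      ((hreal φ).trans (splitsAt_congr φ hd0 hc' ha' hb' e').symm)
    have hcr : ∀ w : K, SplitsAt φ d w ↔ 0 < φ w := fun w => by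
      rw [← not_iff_not]
      exact (real_conic_iff ((map_ne_zero φ).2 hd0)).trans ⟨fun h => h.2.not_gt,
        fun h => ⟨hd', not_lt.1 h⟩⟩
    rw [hcr, hcr] at h
    have hq := lt_of_le_of_ne hn.2 ((map_ne_zero φ).2 hdivn)
    rw [map_div₀] at hq
    rcases lt_or_gt_of_ne ((map_ne_zero φ).2 hc) with h' | h'
    · exact (div_pos_of_neg_of_neg (lt_of_le_of_ne (not_lt.1 fun hp => lt_asymm h' (h.2 hp))
        ((map_ne_zero φ).2 hc')) h').not_gt hq
    · exact (div_pos (h.1 h') h').not_gt hq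
  obtain ⟨p, q, hpq⟩ := exists_form_eq two_ne_zero hxy
  have hc'eq : c' = c * (p ^ 2 - d * q ^ 2) := by rw [hpq, mul_div_cancel₀ _ hc]
  subst hc'eq
  obtain ⟨m⟩ := nonempty_algEquiv_mul_norm (p := p) (q := q) hd0 hc (hpq ▸ hdivn)
  exact ⟨e.symm.trans (m.symm.trans e')⟩

/-- **An element is a sum of four squares iff it is nowhere negative.** -/
theorem exists_four_squares_iff (q : K) :
    (∃ x : Fin 4 → K, ∑ i, x i ^ 2 = q) ↔ ∀ φ : K →+* ℝ, 0 ≤ φ q := by
  constructor
  · rintro ⟨x, rfl⟩ φ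
    rw [map_sum]
    exact Finset.sum_nonneg fun i _ => by rw [map_pow]; exact sq_nonneg _
  intro h
  obtain ⟨x, hx⟩ := (FA.Summary.representation_numberField (a := fun _ : Fin 4 => (1 : K))
    (fun _ => one_ne_zero) q).2 ⟨fun v => by
      obtain ⟨x, hx⟩ := exists_four_squares_completion v q
      exact ⟨x, by simpa using hx⟩, fun φ => ⟨![Real.sqrt (φ q), 0, 0, 0], by
        simp [Fin.sum_univ_four, Real.sq_sqrt (h φ)]⟩⟩
  exact ⟨x, by simpa using hx⟩

/-- **When minus one is a sum of two squares.** -/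
theorem exists_two_squares_neg_one_iff :
    (∃ x y : K, x ^ 2 + y ^ 2 = -1) ↔ IsEmpty (K →+* ℝ) ∧
      ∀ v : HeightOneSpectrum (𝓞 K), (2 : 𝓞 K) ∈ v.asIdeal →
        ∃ x y : v.adicCompletion K, x ^ 2 + y ^ 2 = -1 := by
  constructor
  · rintro ⟨x, y, h⟩
    refine ⟨⟨fun φ => ?_⟩, fun v _ => ⟨algebraMap K _ x, algebraMap K _ y, ?_⟩⟩
    · have h1 := congrArg φ h
      rw [map_add, map_pow, map_pow, map_neg, map_one] at h1
      nlinarith [sq_nonneg (φ x), sq_nonneg (φ y)]
    · simpa using congrArg (algebraMap K (v.adicCompletion K)) h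
  rintro ⟨hempty, h⟩
  have hneg : (-1 : K) ≠ 0 := neg_ne_zero.2 one_ne_zero
  have hloc : ∀ v : HeightOneSpectrum (𝓞 K), ∃ x y : v.adicCompletion K,
      algebraMap K (v.adicCompletion K) (-1) * x ^ 2 +
        algebraMap K (v.adicCompletion K) (-1) * y ^ 2 = 1 := fun v => by
    haveI := charZero_completion v
    by_cases h2 : (2 : 𝓞 K) ∈ v.asIdeal
    · obtain ⟨x, y, hxy⟩ := h v h2
      exact ⟨x, y, by rw [map_neg, map_one]; linear_combination -hxy⟩
    · have h1 : FA.ArtinRec.ord v (-1 : Kˣ) = 0 := by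
        rw [FA.ArtinRec.ord_eq_iff, Units.val_neg, Units.val_one, Valuation.map_neg, map_one,
          neg_zero, WithZero.exp_zero]
      simpa using exists_conic_of_units h2 h1 h1
  obtain ⟨x, y, hxy⟩ := exists_conic_point_of_local hneg hneg hloc fun φ => (IsEmpty.false φ).elim
  exact ⟨x, y, by linear_combination -hxy⟩

end FA.QuaternionNF

end
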